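/-
GATE-E (S59 pre-work) / E8.6 IRR2 at `p = 5`, node P5MINK (helper26 7242), leaf (C1) (helper16).

**Tame inertia, prime-to-`q` part.**  `P` a place of `ℚ̄` over `q`, `f : G_ℚ →* H` a homomorphism
factoring through a finite level.  If the image `f(I_P)` of the inertia group has order prime to
`q`, then `f(I_P)` is CYCLIC:

* `isCyclic_map_inertia_of_coprime` : `IsCyclic ((P.inertiaSubgroupIn ℚ).map f)`;
* `comm_of_map_inertia_coprime`     : element form, `f σ * f τ = f τ * f σ` on `I_P`.

This is the prime-to-`q` twin of `GP/Loc/TamePQuot.isCyclic_map_inertia_of_isPGroup` (helper29).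
The abstract structure theorem `GL/TameCyclic.isCyclic_quotient_of_coprime` (helper2) needs the
hypothesis `hdig` (every residue class contains a `G`-invariant element), which averaging only
provides when `|G|` itself is prime to `q`.  Here `hdig` is AVOIDED:

* `thetaT`  : the tame character `g ↦ (g • π) / π mod m`, a homomorphism as soon as `G` acts
  trivially on the residue field (`htriv`, true for inertia groups by definition);
* `eq_one_of_unif_of_pow_eq_one` : `h • π ≡ π mod m²` and `h ^ r = 1`, `r` prime to `q` ⟹ `h = 1`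
  (averaging over the CYCLIC group `⟨h⟩`, of order prime to `q`, gives `hdig` for `⟨h⟩`; then
  `TameCyclic.eq_one_of_mem_wild_of_pow_eq_one`);
* `ker_thetaT_le_of_coprime`, `isCyclic_quotient_of_coprime_of_trivial_residue` : every normal
  subgroup of index prime to `q` contains `ker θ`, so every quotient of order prime to `q` is a
  quotient of `G ⧸ ker θ ↪ k^×`, hence cyclic;
* `isCyclic_range_of_ker_le_of_coprime` : descent along `θ : Γ →* G`, `ker θ ≤ ker f`.
-/
import Mathlib
import Fermat.Agent.GL.TameCyclic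
import Fermat.Agent.GP.Loc.TamePQuot

set_option autoImplicit false

namespace Fermat.Agent.GE8.Irr2.P5.TameCoprime

open IsLocalRing Fermat.Agent.GL.TameCyclic

/-! ### Part A: the abstract structure statement, without `hdig` -/

section Abstract

variable {O : Type*} [CommRing O] [IsDomain O] [IsDiscreteValuationRing O]
variable {G : Type*} [Group G] [MulSemiringAction G O]

/-- **averaging**: a finite group of order prime to the residue characteristic, acting trivially on
the residue field, has invariant digits. -/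
theorem hdig_of_coprime [Finite G] (q : ℕ) [Fact q.Prime] (hchar : (q : O) ∈ maximalIdeal O)
    (htriv : ∀ (g : G) (x : O), g • x - x ∈ maximalIdeal O)
    (hcop : (Nat.card G).Coprime q) :
    ∀ x : O, ∃ c : O, (∀ g : G, g • c = c) ∧ x - c ∈ maximalIdeal O := by
  classical
  have : Fintype G := Fintype.ofFinite G
  have hunit : IsUnit ((Nat.card G : ℕ) : O) := isUnit_natCast_of_coprime q hchar hcop
  obtain ⟨w, hw⟩ := hunit.exists_right_inv
  have hwfix : ∀ h : G, h • w = w := by
    intro h
    have hN : h • ((Nat.card G : ℕ) : O) = ((Nat.card G : ℕ) : O) :=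
      map_natCast (MulSemiringAction.toRingHom G O h) _
    have h1 : ((Nat.card G : ℕ) : O) * h • w = 1 := by
      have := congrArg (fun z => h • z) hw
      rw [smul_mul', hN, smul_one] at this
      exact this
    calc h • w = (w * ((Nat.card G : ℕ) : O)) * h • w := by rw [mul_comm w, hw, one_mul]
      _ = w * (((Nat.card G : ℕ) : O) * h • w) := by ring
      _ = w := by rw [h1, mul_one]
  intro x
  refine ⟨w * ∑ g : G, g • x, ?_, ?_⟩
  · intro h
    rw [smul_mul', hwfix h, Finset.smul_sum]
    congr 1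
    simp only [← mul_smul]
    exact Fintype.sum_bijective (fun g => h * g) (Group.mulLeft_bijective h) _ _ (fun _ => rfl)
  · have h0 : w * (((Nat.card G : ℕ) : O) * x) = x := by
      rw [← mul_assoc, mul_comm w, hw, one_mul]
    have h1 : x - w * ∑ g : G, g • x = - (w * ∑ g : G, (g • x - x)) := by
      rw [Finset.sum_sub_distrib, Finset.sum_const, Finset.card_univ, ← Nat.card_eq_fintype_card,
        nsmul_eq_mul, mul_sub, h0]
      ring
    rw [h1]
    exact (Ideal.neg_mem_iff _).2 (Ideal.mul_mem_left _ _ (Ideal.sum_mem _ fun g _ => htriv g x))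

/-- The tame character `g ↦ (g • π) / π mod m`, for a group acting trivially on the residue
field (no `hdig`). -/
noncomputable def thetaT {π : O} (hπ : maximalIdeal O = Ideal.span {π}) (hπ0 : π ≠ 0)
    (htriv : ∀ (g : G) (x : O), g • x - x ∈ maximalIdeal O) : G →* ResidueField O where
  toFun g := residue O (cocycle hπ g)
  map_one' := by rw [cocycle_one hπ hπ0, map_one]
  map_mul' g h := by
    rw [cocycle_mul hπ hπ0, map_mul]
    congr 1
    rw [← sub_eq_zero, ← map_sub, residue_eq_zero_iff]
    exact htriv g _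

/-- elements of the kernel of the tame character move `π` only by `m²`. -/
theorem smul_unif_sub_mem_of_mem_ker {π : O} (hπ : maximalIdeal O = Ideal.span {π}) (hπ0 : π ≠ 0)
    (htriv : ∀ (g : G) (x : O), g • x - x ∈ maximalIdeal O) {g : G}
    (hg : g ∈ (thetaT hπ hπ0 htriv).ker) : g • π - π ∈ maximalIdeal O ^ 2 := by
  have hπm : π ∈ maximalIdeal O := by rw [hπ]; exact Ideal.mem_span_singleton_self _
  rw [MonoidHom.mem_ker] at hg
  change residue O (cocycle hπ g) = 1 at hg
  rw [← sub_eq_zero, ← map_one (residue O), ← map_sub, residue_eq_zero_iff] at hg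
  have e : g • π - π = π * (cocycle hπ g - 1) := by rw [cocycle_spec hπ g]; ring
  rw [e, pow_two]
  exact Ideal.mul_mem_mul hπm hg

variable [FaithfulSMul G O]

/-- **an element moving the uniformiser only by `m²`, of order prime to `q`, is trivial**
(the group acts trivially on the residue field; no `hdig`). -/
theorem eq_one_of_unif_of_pow_eq_one (q : ℕ) [hq : Fact q.Prime]
    (hchar : (q : O) ∈ maximalIdeal O)
    (htriv : ∀ (g : G) (x : O), g • x - x ∈ maximalIdeal O)
    {π : O} (hπ : maximalIdeal O = Ideal.span {π}) {h : G}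
    (hh : h • π - π ∈ maximalIdeal O ^ 2) {r : ℕ} (hr : r.Coprime q) (hpow : h ^ r = 1) :
    h = 1 := by
  have hr0 : 0 < r := by
    rcases Nat.eq_zero_or_pos r with h0 | h0
    · subst h0
      rw [Nat.coprime_zero_left] at hr
      exact absurd hr hq.out.one_lt.ne'
    · exact h0
  have hfo : IsOfFinOrder h := isOfFinOrder_iff_pow_eq_one.2 ⟨r, hr0, hpow⟩
  let S : Subgroup G := Subgroup.zpowers h
  have hSfin : Finite S := by
    have : (S : Set G).Finite := by
      show ((Subgroup.zpowers h : Subgroup G) : Set G).Finite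
      exact hfo.finite_zpowers
    exact this.to_subtype
  have hcard : Nat.card S = orderOf h := Nat.card_zpowers h
  have hcop : (Nat.card S).Coprime q := by
    rw [hcard]
    exact Nat.Coprime.coprime_dvd_left (orderOf_dvd_of_pow_eq_one hpow) hr
  have hdigS : ∀ x : O, ∃ c : O, (∀ g : S, g • c = c) ∧ x - c ∈ maximalIdeal O :=
    hdig_of_coprime (O := O) (G := S) q hchar (fun g x => htriv g.1 x) hcop
  let hS : S := ⟨h, Subgroup.mem_zpowers h⟩
  have hmem : hS ∈ wild O S := mem_ramif_of_unif hπ hdigS hS 2 hh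
  have hpowS : hS ^ r = 1 := Subtype.ext (by simpa using hpow)
  have := eq_one_of_mem_wild_of_pow_eq_one (O := O) (G := S) q hchar hdigS hmem hr hpowS
  exact congrArg Subtype.val this

variable [Finite G]

/-- every normal subgroup of index prime to `q` contains the kernel of the tame character. -/
theorem ker_thetaT_le_of_coprime (q : ℕ) [hq : Fact q.Prime]
    (hchar : (q : O) ∈ maximalIdeal O)
    (htriv : ∀ (g : G) (x : O), g • x - x ∈ maximalIdeal O)
    {π : O} (hπ : maximalIdeal O = Ideal.span {π}) (hπ0 : π ≠ 0)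
    (N : Subgroup G) [N.Normal] (hN : (Nat.card (G ⧸ N)).Coprime q) :
    (thetaT hπ hπ0 htriv).ker ≤ N := by
  intro g hg
  obtain ⟨e, r, hr, hn⟩ := Nat.exists_eq_pow_mul_and_not_dvd (orderOf_pos g).ne' q
    hq.out.one_lt.ne'
  have hrq : r.Coprime q := ((Nat.Prime.coprime_iff_not_dvd hq.out).2 hr).symm
  have hk : g ^ q ^ e ∈ (thetaT hπ hπ0 htriv).ker := Subgroup.pow_mem _ hg _
  have h1 : g ^ q ^ e = 1 :=
    eq_one_of_unif_of_pow_eq_one q hchar htriv hπ
      (smul_unif_sub_mem_of_mem_ker hπ hπ0 htriv hk) hrq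
      (by rw [← pow_mul, ← hn, pow_orderOf_eq_one])
  have h2 : orderOf (g : G ⧸ N) ∣ q ^ e :=
    orderOf_dvd_of_pow_eq_one (by rw [← QuotientGroup.mk_pow, h1, QuotientGroup.mk_one])
  have h3 : orderOf (g : G ⧸ N) ∣ Nat.card (G ⧸ N) := orderOf_dvd_natCard _
  have h4 : orderOf (g : G ⧸ N) = 1 :=
    Nat.eq_one_of_dvd_coprimes (Nat.Coprime.pow_left e hN.symm) h2 h3
  exact (QuotientGroup.eq_one_iff g).1 (orderOf_eq_one_iff.1 h4)

/-- **Every quotient of order prime to `q` of a finite group acting faithfully on a DVR of residue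
characteristic `q`, trivially on the residue field, is cyclic.** -/
theorem isCyclic_quotient_of_coprime_of_trivial_residue (q : ℕ) [hq : Fact q.Prime]
    (hchar : (q : O) ∈ maximalIdeal O)
    (htriv : ∀ (g : G) (x : O), g • x - x ∈ maximalIdeal O)
    (N : Subgroup G) [N.Normal] (hN : (Nat.card (G ⧸ N)).Coprime q) : IsCyclic (G ⧸ N) := by
  obtain ⟨π, hπirr⟩ := IsDiscreteValuationRing.exists_irreducible O
  have hπ : maximalIdeal O = Ideal.span {π} := hπirr.maximalIdeal_eq
  have hle := ker_thetaT_le_of_coprime q hchar htriv hπ hπirr.ne_zero N hN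
  have : IsCyclic (G ⧸ (thetaT hπ hπirr.ne_zero htriv).ker) :=
    isCyclic_quotient_of_ker_eq (thetaT hπ hπirr.ne_zero htriv) _ rfl
  refine isCyclic_of_surjective
    (QuotientGroup.map (thetaT hπ hπirr.ne_zero htriv).ker N (MonoidHom.id G) hle) ?_
  intro x
  induction x using QuotientGroup.induction_on with
  | H g => exact ⟨(g : G ⧸ (thetaT hπ hπirr.ne_zero htriv).ker), rfl⟩

end Abstract

/-! ### Part C': descent -/

section GroupTheory

variable {Γ G H : Type*} [Group Γ] [Group G] [Group H]

/-- descent along `θ : Γ →* G` with `ker θ ≤ ker f`: if all quotients of order prime to `q` of all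
subgroups of `G` are cyclic and `f` has range of order prime to `q`, the range of `f` is cyclic. -/
theorem isCyclic_range_of_ker_le_of_coprime (q : ℕ)
    (hsub : ∀ (R : Subgroup G) (N : Subgroup R) [N.Normal],
      (Nat.card (R ⧸ N)).Coprime q → IsCyclic (R ⧸ N))
    (θ : Γ →* G) (f : Γ →* H) (hker : θ.ker ≤ f.ker) (hf : (Nat.card f.range).Coprime q) :
    IsCyclic f.range := by
  let fbar : Γ ⧸ θ.ker →* H := QuotientGroup.lift θ.ker f hker
  have hrange : fbar.range = f.range := by
    ext y
    constructor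
    · rintro ⟨x, rfl⟩
      induction x using QuotientGroup.induction_on with
      | H g => exact ⟨g, rfl⟩
    · rintro ⟨g, rfl⟩
      exact ⟨(g : Γ ⧸ θ.ker), rfl⟩
  let e : Γ ⧸ θ.ker ≃* θ.range := QuotientGroup.quotientKerEquivRange θ
  let ψ : θ.range →* H := fbar.comp e.symm.toMonoidHom
  have hψ : ψ.range = f.range := by
    rw [← hrange]
    ext y
    constructor
    · rintro ⟨x, rfl⟩
      exact ⟨e.symm x, rfl⟩
    · rintro ⟨x, rfl⟩
      exact ⟨e x, by simp [ψ]⟩
  have e2 : θ.range ⧸ ψ.ker ≃* ψ.range := QuotientGroup.quotientKerEquivRange ψ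
  have hcard : (Nat.card (θ.range ⧸ ψ.ker)).Coprime q := by
    rw [Nat.card_congr e2.toEquiv, hψ]
    exact hf
  have hc : IsCyclic (θ.range ⧸ ψ.ker) := hsub θ.range ψ.ker hcard
  have hc2 : IsCyclic ψ.range := isCyclic_of_surjective e2 e2.surjective
  rw [← hψ]
  exact hc2

end GroupTheory

/-! ### Main theorem -/

section Main

open Fermat.Agent.GL.Local.ComapDVR Fermat.Agent.GP.Loc.TamePQuot

variable (P : ValuationSubring (AlgebraicClosure ℚ)) {q : ℕ}

/-- **Tame inertia, prime-to-`q` part.**  Let `P` be a place of `ℚ̄` over `q` and `f : G_ℚ →* H` a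
homomorphism factoring through a finite level.  If the image `f(I_P)` of the inertia group has order
prime to `q`, then `f(I_P)` is cyclic. -/
theorem isCyclic_map_inertia_of_coprime (hq : q.Prime) (hP : P.LiesOverPrime q)
    {H : Type*} [Group H] (f : (AlgebraicClosure ℚ ≃ₐ[ℚ] AlgebraicClosure ℚ) →* H)
    (hf : ∃ L : IntermediateField ℚ (AlgebraicClosure ℚ), FiniteDimensional ℚ L ∧
      ∀ σ : AlgebraicClosure ℚ ≃ₐ[ℚ] AlgebraicClosure ℚ, (∀ x ∈ L, σ x = x) → f σ = 1)
    (hcop : (Nat.card ((P.inertiaSubgroupIn ℚ).map f)).Coprime q) :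
    IsCyclic ((P.inertiaSubgroupIn ℚ).map f) := by
  obtain ⟨L₀, hL₀, hker⟩ := hf
  have hA : ((q : ℕ) : AlgebraicClosure ℚ) ∈ P.nonunits := hP
  have : Fact q.Prime := ⟨hq⟩
  have : Algebra.IsAlgebraic ℚ (AlgebraicClosure ℚ) := AlgebraicClosure.isAlgebraic ℚ
  have : IsAlgClosure ℚ (AlgebraicClosure ℚ) := ⟨inferInstance, inferInstance⟩
  have : Normal ℚ (AlgebraicClosure ℚ) := IsAlgClosure.normal ℚ (AlgebraicClosure ℚ)
  let L : IntermediateField ℚ (AlgebraicClosure ℚ) :=
    IntermediateField.normalClosure ℚ L₀ (AlgebraicClosure ℚ)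
  have hLn : Normal ℚ L := normalClosure.normal ℚ L₀ (AlgebraicClosure ℚ)
  have hLf : FiniteDimensional ℚ L := normalClosure.is_finiteDimensional ℚ L₀ (AlgebraicClosure ℚ)
  have hle : L₀ ≤ L := L₀.le_normalClosure
  obtain ⟨π, hπ0, hπ, hval⟩ := exists_uniformizer (L := L) P hq hA
  have hdvr : IsDiscreteValuationRing (sub P (L := L)) :=
    isDiscreteValuationRing_sub P hπ hπ0 hval
  have hchar : ((q : ℕ) : sub P (L := L)) ∈ IsLocalRing.maximalIdeal (sub P (L := L)) := by
    rw [IsLocalRing.mem_maximalIdeal, mem_nonunits_iff, isUnit_sub_iff]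
    have h1 : algebraMap L (AlgebraicClosure ℚ) (((q : ℕ) : sub P (L := L)) : L) =
        ((q : ℕ) : AlgebraicClosure ℚ) := by
      simp
    rw [h1]
    exact ((P.mem_nonunits_iff).1 hA).ne
  have hfin : Finite ↥((sub P (L := L)).inertiaSubgroup ℚ) := inferInstance
  have hsub : ∀ (R : Subgroup ↥((sub P (L := L)).inertiaSubgroup ℚ)) (N : Subgroup R) [N.Normal],
      (Nat.card (R ⧸ N)).Coprime q → IsCyclic (R ⧸ N) := fun R N _ hN =>
    isCyclic_quotient_of_coprime_of_trivial_residue (O := sub P (L := L)) (G := R) q hchar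
      (fun g x => inertiaSubgroup_smul_sub_mem P L g.1 x) N hN
  have hrange : (f.comp (P.inertiaSubgroupIn ℚ).subtype).range = (P.inertiaSubgroupIn ℚ).map f := by
    rw [← MonoidHom.map_range, Subgroup.range_subtype]
  have hker' : (inertiaRestrict P L).ker ≤ (f.comp (P.inertiaSubgroupIn ℚ).subtype).ker := by
    intro σ hσ
    rw [MonoidHom.mem_ker, MonoidHom.comp_apply]
    exact hker _ fun x hx => apply_eq_of_mem_ker_inertiaRestrict P L hσ x (hle hx)
  have hmain := isCyclic_range_of_ker_le_of_coprime q hsub (inertiaRestrict P L)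
    (f.comp (P.inertiaSubgroupIn ℚ).subtype) hker' (by rw [hrange]; exact hcop)
  rwa [hrange] at hmain

/-- element form: `f` is commutative on the inertia group when `f(I_P)` has order prime to `q`. -/
theorem comm_of_map_inertia_coprime (hq : q.Prime) (hP : P.LiesOverPrime q)
    {H : Type*} [Group H] (f : (AlgebraicClosure ℚ ≃ₐ[ℚ] AlgebraicClosure ℚ) →* H)
    (hf : ∃ L : IntermediateField ℚ (AlgebraicClosure ℚ), FiniteDimensional ℚ L ∧
      ∀ σ : AlgebraicClosure ℚ ≃ₐ[ℚ] AlgebraicClosure ℚ, (∀ x ∈ L, σ x = x) → f σ = 1)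
    (hcop : (Nat.card ((P.inertiaSubgroupIn ℚ).map f)).Coprime q)
    {σ τ : AlgebraicClosure ℚ ≃ₐ[ℚ] AlgebraicClosure ℚ}
    (hσ : σ ∈ P.inertiaSubgroupIn ℚ) (hτ : τ ∈ P.inertiaSubgroupIn ℚ) :
    f σ * f τ = f τ * f σ := by
  have hc := isCyclic_map_inertia_of_coprime P hq hP f hf hcop
  have hcomm := hc.isMulCommutative
  have := hcomm.is_comm.comm (⟨f σ, ⟨σ, hσ, rfl⟩⟩ : (P.inertiaSubgroupIn ℚ).map f)
    ⟨f τ, ⟨τ, hτ, rfl⟩⟩
  exact congrArg Subtype.val this

end Main

end Fermat.Agent.GE8.Irr2.P5.TameCoprime
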