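/-
GATE-E (S59 pre-work) / E8.6 IRR2 at `p = 5`, node GE8-IRR2-P5MINK, the FINAL (helper26).

**`hasTransvectionModP_five`**: for EVERY semistable `W / ℤ`, `Δ ≠ 0`, with `W[5]` irreducible, the
image of `ρ̄_{W,5}` contains a transvection — the `htrans` field of `GB/Setup/SetupPkg.Pkg` at
`p = 5` (no `S₄`-image exception).

Proof.  If not, `ρ̄` is unramified outside `5` and its image `Γ` has order prime to `5`
(helper90 `Transv`), so `#Γ ∣ 96` (helper21 `MinkAPlug.card_im_dvd_W`).  By `Front`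
(`TameDisc` + helper9's `MinkNum`), `Γ = ρ̄(I_A)` for a place `A ∣ 5`; by helper16's `TameCoprime`
(tame inertia of order prime to `5` is cyclic) `Γ` is commutative; so the `+1`-eigenline of `ρ̄(c)`,
`c` = complex conjugation (`det ρ̄(c) = -1`, helper90 `HabsW`), is stable
(helper81 `GroupCore.false_of_comm`) — contradiction with irreducibility.
-/
import Mathlib
import Fermat.Agent.GE8.Irr2.HabsW
import Fermat.Agent.GE8.Irr2.MinkAPlug
import Fermat.Agent.GE8.Irr2.PrimeToP.GroupCore
import Fermat.Agent.GE8.Irr2.P5.Front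
import Fermat.Agent.GE8.Irr2.P5.TameCoprime

set_option autoImplicit false
set_option linter.unusedSectionVars false
set_option linter.unusedVariables false
set_option linter.style.haveILetI false

open WeierstrassCurve WeierstrassCurve.Affine.Point
open scoped WeierstrassCurve.Affine

namespace Fermat.Agent.GE8.Irr2.P5.Final

open Fermat.Agent.GB.Setup.RhoBar
open Fermat.Agent.GB.Top.FreyTwo.Transvection
open Fermat.Agent.GE8.Irr2.Transv Fermat.Agent.GE8.Irr2.MinkAPlug Fermat.Agent.Common_helper32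
open Fermat.Agent.S51_helper12

/-- **E8.6 IRR2 at `p = 5`, the transvection**: a semistable `W / ℤ` with `W[5]` irreducible has a
transvection in the image of `ρ̄_{W,5}`. -/
theorem hasTransvectionModP_five (W : WeierstrassCurve ℤ) (hΔ : W.Δ ≠ 0)
    (hss : W.IsSemistableModel) (hirr : W.ModRepIsIrreducible 5) :
    HasTransvectionModP (W.map (Int.castRingHom ℚ)) 5 := by
  by_contra hno
  have hp : Nat.Prime 5 := Nat.prime_five
  haveI : Fact (Nat.Prime 5) := ⟨hp⟩
  obtain ⟨A, hA⟩ := exists_liesOverPrime 5 hp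
  have hfin : Finite (Im (W.map (Int.castRingHom ℚ)) 5) := finite_im_W W hΔ hp
  have hlev := rhoR_level_W W hΔ hp
  have hcard : Nat.card (Im (W.map (Int.castRingHom ℚ)) 5) ∣ 96 := by
    have h := card_im_dvd_W W hss hΔ hp hno
    norm_num at h
    exact h
  have htop := Fermat.Agent.GE8.Irr2.P5.Front.exists_inertia_rep_five
    (rhoR (W.map (Int.castRingHom ℚ)) 5) hlev (rhoR_surjective _ 5) A hA
    (rhoR_unr W hss hΔ hp hno) hcard
  have hcop : (Nat.card ((A.inertiaSubgroupIn ℚ).map
      (rhoR (W.map (Int.castRingHom ℚ)) 5))).Coprime 5 := by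
    have h1 : Nat.card ((A.inertiaSubgroupIn ℚ).map (rhoR (W.map (Int.castRingHom ℚ)) 5)) ∣ 96 :=
      (Subgroup.card_subgroup_dvd_card _).trans hcard
    have h2 : Nat.Coprime 96 5 := by norm_num
    exact Nat.Coprime.coprime_dvd_left h1 h2
  have hcomm : ∀ σ τ : GQ, rhoR (W.map (Int.castRingHom ℚ)) 5 σ *
      rhoR (W.map (Int.castRingHom ℚ)) 5 τ =
      rhoR (W.map (Int.castRingHom ℚ)) 5 τ * rhoR (W.map (Int.castRingHom ℚ)) 5 σ := by
    intro σ τ
    obtain ⟨σ', hσ', h1⟩ := htop σ
    obtain ⟨τ', hτ', h2⟩ := htop τ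
    rw [h1, h2]
    exact Fermat.Agent.GE8.Irr2.P5.TameCoprime.comm_of_map_inertia_coprime A hp hA
      (rhoR (W.map (Int.castRingHom ℚ)) 5) hlev hcop hσ' hτ'
  -- the frozen `rb`
  have hcard₁ := card_tors W hΔ hp
  haveI := finite_tors W hΔ hp
  have hker : GaloisFactorsThroughFiniteLevel
      (galoisRepModuleEnd (K := AlgebraicClosure ℚ) ℚ (W.map (Int.castRingHom ℚ)) 5) :=
    Fermat.Agent.GJ.Pkg.finiteLevel_galoisRepModuleEnd _ 5
  have hmf : Module.Finite (ZMod 5) (rb 5 W hcard₁ hker).V :=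
    Module.finite_of_finrank_pos (by rw [(rb 5 W hcard₁ hker).finrank_eq]; norm_num)
  refine Fermat.Agent.GE8.Irr2.PrimeToP.false_of_comm (rb 5 W hcard₁ hker).ρ complexConjugation
    (rb 5 W hcard₁ hker).finrank_eq (by norm_num) (isIrreducible_rb hcard₁ hker hirr)
    (by rw [← map_mul, complexConjugation_mul_self, map_one])
    (Fermat.Agent.GE8.Irr2.HabsW.det_rb_complexConjugation hcard₁ hker hΔ hirr) (fun g => ?_)
  have h := hcomm g complexConjugation
  have h' := congrArg (fun x : Im (W.map (Int.castRingHom ℚ)) 5 =>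
    ((x : (Module.End (ZMod 5) (Tors (W.map (Int.castRingHom ℚ)) 5))ˣ) :
      Module.End (ZMod 5) (Tors (W.map (Int.castRingHom ℚ)) 5))) h
  simp only [Subgroup.coe_mul, Units.val_mul, coe_rhoR] at h'
  exact h'

end Fermat.Agent.GE8.Irr2.P5.Final
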