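/-
GATE-E (S59 pre-work) / E8.6 IRR2 at `p = 5`, node P5MINK (helper26 7242), leaf (C2) (helper16).

**image = image of tame inertia ⟹ reducible.**

* `ker_sub_one_ne_bot`, `ker_sub_one_ne_top` (Mathlib only): an involution `g` of a plane with
  `det g = -1` (`2 ≠ 0`) has a proper nonzero `(+1)`-eigenspace;
* `not_isIrreducible_of_commute` : a `ResidualGaloisRep` all of whose values commute with `ρ(c)`,
  `c * c = 1`, `det ρ(c) = -1`, is NOT irreducible (the `(+1)`-eigenline of `ρ(c)` is stable);
* `false_of_commute_rb` : the same for `ρ̄_{W,p}` (`HabsW.det_rb_complexConjugation`);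
* **`false_of_map_inertia_eq_top`** : `W / ℤ` semistable, `Δ ≠ 0`, `p` odd, `W[p]` irreducible, NO
  transvection in the image of `ρ̄_{W,p}`, `A ∣ p`: the image of the inertia group `I_A` under
  `MinkAPlug.rhoR` is NOT the whole image `Im`.  (If it were, `Im` would have order prime to `p`
  (`MinkAPlug.not_dvd_card_im`), hence be cyclic by `TameCoprime.isCyclic_map_inertia_of_coprime`,
  hence commutative.)

In helper26's plan `ρ̄(I_A) = Im` is the output `e = n` of (D) tame discriminant + (M) Minkowski;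
the bridge from `P.inertia Gal(K/ℚ) = ⊤` is `P5/InertiaTop.lean`.
-/
import Mathlib
import Fermat.Agent.GE8.Irr2.HabsW
import Fermat.Agent.GE8.Irr2.MinkAPlug
import Fermat.Agent.GE8.Irr2.P5.TameCoprime

set_option autoImplicit false
set_option linter.unusedSectionVars false
set_option linter.unusedVariables false

open WeierstrassCurve WeierstrassCurve.Affine.Point
open scoped WeierstrassCurve.Affine

namespace Fermat.Agent.GE8.Irr2.P5.CommRed

open Module

/-! ### linear algebra -/

section Plane

variable {k : Type*} [Field k] {V : Type*} [AddCommGroup V] [Module k V]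

/-- an involution of a plane with determinant `-1` is not `-1`: its `(+1)`-eigenspace is not
zero. -/
theorem ker_sub_one_ne_bot (hrk : finrank k V = 2) (h2 : (2 : k) ≠ 0) (g : Module.End k V)
    (hg : g * g = 1) (hdet : LinearMap.det g = -1) : LinearMap.ker (g - 1) ≠ ⊥ := by
  intro hbot
  have hinj := LinearMap.ker_eq_bot.1 hbot
  have hneg : g = -1 := by
    refine LinearMap.ext fun x => ?_
    have h1 : (g - 1) ((g + 1) x) = 0 := by
      have : (g - 1) * (g + 1) = 0 := by
        have : (g - 1) * (g + 1) = g * g - 1 := by noncomm_ring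
        rw [this, hg, sub_self]
      have := LinearMap.congr_fun this x
      rwa [Module.End.mul_apply, LinearMap.zero_apply] at this
    have h3 : (g + 1) x = 0 := hinj (by rw [h1, _root_.map_zero])
    rw [LinearMap.add_apply, Module.End.one_apply] at h3
    rw [LinearMap.neg_apply, Module.End.one_apply]
    exact eq_neg_of_add_eq_zero_left h3
  have hdet1 : LinearMap.det g = 1 := by
    have h3 : g = (-1 : k) • (1 : Module.End k V) := by rw [hneg, neg_one_smul]
    rw [h3, LinearMap.det_smul, hrk, map_one]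
    norm_num
  rw [hdet1] at hdet
  apply h2
  have : (2 : k) = 1 - (-1) := by norm_num
  rw [this, ← hdet, sub_self]

/-- an involution of a plane with determinant `-1` is not `1`. -/
theorem ker_sub_one_ne_top (h2 : (2 : k) ≠ 0) (g : Module.End k V)
    (hdet : LinearMap.det g = -1) : LinearMap.ker (g - 1) ≠ ⊤ := by
  intro htop
  have h1 : g = 1 := by
    have := LinearMap.ker_eq_top.1 htop
    exact sub_eq_zero.1 this
  rw [h1, map_one] at hdet
  apply h2
  have : (2 : k) = 1 - (-1) := by norm_num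
  rw [this, ← hdet, sub_self]

/-- the `(+1)`-eigenspace of `g` is stable under everything commuting with `g`. -/
theorem map_mem_ker_sub_one (g h : Module.End k V) (hcomm : h * g = g * h) {x : V}
    (hx : x ∈ LinearMap.ker (g - 1)) : h x ∈ LinearMap.ker (g - 1) := by
  rw [LinearMap.mem_ker, LinearMap.sub_apply, Module.End.one_apply, sub_eq_zero] at hx ⊢
  have := LinearMap.congr_fun hcomm x
  rw [Module.End.mul_apply, Module.End.mul_apply, hx] at this
  exact this.symm

end Plane

/-! ### residual representations -/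

/-- `ℚ̄`. -/
local notation "Qb" => AlgebraicClosure ℚ
/-- `G_ℚ`. -/
local notation "GQ" => (AlgebraicClosure ℚ ≃ₐ[ℚ] AlgebraicClosure ℚ)

section Residual

variable {k : Type} [Field k]

/-- **a residual representation whose image commutes with an odd involution is reducible.** -/
theorem not_isIrreducible_of_commute (h2 : (2 : k) ≠ 0) (ρ : ResidualGaloisRep k)
    (c : GQ) (hc : c * c = 1) (hdet : LinearMap.det (ρ.ρ c) = -1)
    (hcomm : ∀ σ : GQ, ρ.ρ σ * ρ.ρ c = ρ.ρ c * ρ.ρ σ) : ¬ ρ.IsIrreducible := by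
  intro hirr
  have hgg : ρ.ρ c * ρ.ρ c = 1 := by rw [← map_mul, hc, map_one]
  rcases hirr (LinearMap.ker (ρ.ρ c - 1))
    (fun σ x hx => map_mem_ker_sub_one (ρ.ρ c) (ρ.ρ σ) (hcomm σ) hx) with h | h
  · exact ker_sub_one_ne_bot ρ.finrank_eq h2 (ρ.ρ c) hgg hdet h
  · exact ker_sub_one_ne_top h2 (ρ.ρ c) hdet h

end Residual

/-! ### `ρ̄ = W[p]` -/

open Fermat.Agent.GB.Setup.RhoBar Fermat.Agent.Common_helper32

section RB

variable {p : ℕ} [Fact p.Prime] {W : WeierstrassCurve ℤ}
  (hcard₁ : Nat.card (Submodule.torsionBy ℤ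
    ((W.map (Int.castRingHom ℚ))⁄(AlgebraicClosure ℚ)).Point p) = p ^ 2)
  (hker : GaloisFactorsThroughFiniteLevel
    (galoisRepModuleEnd (K := AlgebraicClosure ℚ) ℚ (W.map (Int.castRingHom ℚ)) p))

/-- `ρ̄_{W,p}` irreducible, `p` odd: its image does not commute with complex conjugation. -/
theorem false_of_commute_rb (hp2 : p ≠ 2) (hΔ : W.Δ ≠ 0) (hirr : W.ModRepIsIrreducible p)
    (hcomm : ∀ σ : GQ, (rb p W hcard₁ hker).ρ σ * (rb p W hcard₁ hker).ρ complexConjugation =
      (rb p W hcard₁ hker).ρ complexConjugation * (rb p W hcard₁ hker).ρ σ) : False :=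
  not_isIrreducible_of_commute (HabsW.two_ne_zero_zmod hp2) (rb p W hcard₁ hker)
    complexConjugation complexConjugation_mul_self
    (HabsW.det_rb_complexConjugation hcard₁ hker hΔ hirr) hcomm
    (isIrreducible_rb hcard₁ hker hirr)

end RB

/-! ### the image of inertia at `p` is not everything -/

section Top

open Fermat.Agent.GE8.Irr2.Transv Fermat.Agent.GE8.Irr2.MinkAPlug
open Fermat.Agent.GB.Top.FreyTwo.Transvection Fermat.Agent.S51_helper12

variable (W : WeierstrassCurve ℤ) {p : ℕ}

/-- **(C2)**: without transvection, `ρ̄(I_A) ≠ Im` for `A ∣ p` (`p` odd, `W[p]` irreducible, `W`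
semistable). -/
theorem false_of_map_inertia_eq_top (hss : W.IsSemistableModel) (hΔ : W.Δ ≠ 0) (hp : p.Prime)
    (hp2 : p ≠ 2) (hirr : W.ModRepIsIrreducible p)
    (hno : ¬ HasTransvectionModP (W.map (Int.castRingHom ℚ)) p)
    (A : ValuationSubring Qb) (hA : A.LiesOverPrime p)
    (htop : (A.inertiaSubgroupIn ℚ).map (rhoR (W.map (Int.castRingHom ℚ)) p) = ⊤) : False := by
  have : Fact p.Prime := ⟨hp⟩
  have hcard₁ := card_tors W hΔ hp
  have hfinT := finite_tors W hΔ hp
  have hker : GaloisFactorsThroughFiniteLevel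
      (galoisRepModuleEnd (K := AlgebraicClosure ℚ) ℚ (W.map (Int.castRingHom ℚ)) p) :=
    Fermat.Agent.GJ.Pkg.finiteLevel_galoisRepModuleEnd (W.map (Int.castRingHom ℚ)) p
  have hfin := finite_im_W W hΔ hp
  have hnd := not_dvd_card_im W hss hΔ hp hno
  have hcop : (Nat.card ((A.inertiaSubgroupIn ℚ).map
      (rhoR (W.map (Int.castRingHom ℚ)) p))).Coprime p := by
    rw [htop, Subgroup.card_top]
    exact ((Nat.Prime.coprime_iff_not_dvd hp).2 hnd).symm
  have hcomm : ∀ σ τ : GQ, rhoR (W.map (Int.castRingHom ℚ)) p σ *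
      rhoR (W.map (Int.castRingHom ℚ)) p τ =
      rhoR (W.map (Int.castRingHom ℚ)) p τ * rhoR (W.map (Int.castRingHom ℚ)) p σ := by
    intro σ τ
    have hσ : rhoR (W.map (Int.castRingHom ℚ)) p σ ∈ (A.inertiaSubgroupIn ℚ).map
        (rhoR (W.map (Int.castRingHom ℚ)) p) := by rw [htop]; trivial
    have hτ : rhoR (W.map (Int.castRingHom ℚ)) p τ ∈ (A.inertiaSubgroupIn ℚ).map
        (rhoR (W.map (Int.castRingHom ℚ)) p) := by rw [htop]; trivial
    obtain ⟨σ', hσ', hσe⟩ := hσ
    obtain ⟨τ', hτ', hτe⟩ := hτ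
    rw [← hσe, ← hτe]
    exact Fermat.Agent.GE8.Irr2.P5.TameCoprime.comm_of_map_inertia_coprime A hp hA
      (rhoR (W.map (Int.castRingHom ℚ)) p) (rhoR_level_W W hΔ hp) hcop hσ' hτ'
  refine false_of_commute_rb hcard₁ hker hp2 hΔ hirr (fun σ => ?_)
  have h := hcomm σ complexConjugation
  have h' := congrArg (fun g : Im (W.map (Int.castRingHom ℚ)) p =>
    ((g : (Module.End (ZMod p) (Tors (W.map (Int.castRingHom ℚ)) p))ˣ) :
      Module.End (ZMod p) (Tors (W.map (Int.castRingHom ℚ)) p))) h
  have h'' : rhoBar (W.map (Int.castRingHom ℚ)) p σ *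
      rhoBar (W.map (Int.castRingHom ℚ)) p complexConjugation =
      rhoBar (W.map (Int.castRingHom ℚ)) p complexConjugation *
        rhoBar (W.map (Int.castRingHom ℚ)) p σ := by
    simpa [coe_rhoR] using h'
  exact h''

end Top

end Fermat.Agent.GE8.Irr2.P5.CommRed
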