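/-
GATE-E (S59 pre-work) / E8.6 IRR2 at `p = 5`, node GE8-IRR2-P5MINK, step (M) (helper9, for
helper26 7242): **the numeric Minkowski check**.  Mathlib only.

For every degree `n ∣ 96`, `2 ≤ n` (in particular `n ∈ {4, 8, 12, 16, 24, 32, 48, 96}`)

  `5 ^ (n - 2) < n ^ (2 n) / ((4 / π) ^ n * (n !) ^ 2)`,

so by Mathlib's Minkowski bound `NumberField.abs_discr_ge'` a number field of degree `n ∣ 96`,
`2 ≤ n`, has `5 ^ (n - 2) < |d_K|`.  Consequences in consumer form: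

* `natIneq`                   : the integer inequality
                                `5^(n-2) * 200^n * (n!)^2 < n^(2n) * 157^n` for `n ∣ 96`, `2 ≤ n`
                                (kernel arithmetic);
* `pow_lt_minkowski`          : the real inequality displayed above (`π > 3.14 = 157/50`);
* `pow_lt_abs_discr`          : `(5:ℝ)^(n-2) < |discr K|` for `finrank ℚ K = n ∣ 96`, `2 ≤ n`;
* `pow_lt_abs_discr_int`      : the same in `ℤ`;
* `not_discr_dvd_pow`         : `¬ (discr K ∣ 5 ^ m)` for `m ≤ n - 2`;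
* `eq_of_discr_dvd_pow`       : **`e ∣ n`, `discr K ∣ 5 ^ (n - n / e)` ⟹ `e = n`** (the form used
                                after the tame discriminant bound (D)).
-/
import Mathlib

set_option autoImplicit false

namespace Fermat.Agent.GE8.Irr2.P5.MinkNum

open NumberField Module

/-- the integer form of the numeric check, all `n ≤ 96` dividing `96` at once -/
theorem natIneq_list : ∀ n ∈ [2, 3, 4, 6, 8, 12, 16, 24, 32, 48, 96],
    5 ^ (n - 2) * 200 ^ n * (Nat.factorial n) ^ 2 < n ^ (2 * n) * 157 ^ n := by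
  decide +kernel

/-- the divisors `≥ 2` of `96` -/
theorem mem_list_of_dvd {n : ℕ} (hn : n ∣ 96) (h2 : 2 ≤ n) :
    n ∈ [2, 3, 4, 6, 8, 12, 16, 24, 32, 48, 96] := by
  have hle : n ≤ 96 := Nat.le_of_dvd (by norm_num) hn
  interval_cases n <;> first | (exfalso; revert hn; decide) | decide

/-- **integer form**: `5^(n-2) * 200^n * (n!)^2 < n^(2n) * 157^n` for `n ∣ 96`, `2 ≤ n`. -/
theorem natIneq {n : ℕ} (hn : n ∣ 96) (h2 : 2 ≤ n) :
    5 ^ (n - 2) * 200 ^ n * (Nat.factorial n) ^ 2 < n ^ (2 * n) * 157 ^ n :=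
  natIneq_list n (mem_list_of_dvd hn h2)

/-- `4 / π < 200 / 157` -/
theorem four_div_pi_lt : 4 / Real.pi < (200 : ℝ) / 157 := by
  have hπ : (3.14 : ℝ) < Real.pi := Real.pi_gt_d2
  rw [div_lt_div_iff₀ Real.pi_pos (by norm_num)]
  norm_num at hπ ⊢
  linarith

/-- **real form**: `5 ^ (n - 2) < n ^ (2 n) / ((4 / π) ^ n * (n !) ^ 2)` for `n ∣ 96`, `2 ≤ n`. -/
theorem pow_lt_minkowski {n : ℕ} (hn : n ∣ 96) (h2 : 2 ≤ n) :
    (5 : ℝ) ^ (n - 2) <
      (n : ℝ) ^ (2 * n) / ((4 / Real.pi) ^ n * ((n.factorial : ℕ) : ℝ) ^ 2) := by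
  have hpi : (0 : ℝ) < 4 / Real.pi := div_pos (by norm_num) Real.pi_pos
  have hfac : (0 : ℝ) < ((n.factorial : ℕ) : ℝ) ^ 2 := by
    have : (0 : ℝ) < (n.factorial : ℝ) := by exact_mod_cast n.factorial_pos
    positivity
  have hden : (0 : ℝ) < (4 / Real.pi) ^ n * ((n.factorial : ℕ) : ℝ) ^ 2 :=
    mul_pos (pow_pos hpi n) hfac
  rw [lt_div_iff₀ hden]
  have hnat : ((5 ^ (n - 2) * 200 ^ n * (Nat.factorial n) ^ 2 : ℕ) : ℝ) <
      ((n ^ (2 * n) * 157 ^ n : ℕ) : ℝ) := by exact_mod_cast natIneq hn h2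
  push_cast at hnat
  -- `(4/π)^n ≤ (200/157)^n`
  have hpow : (4 / Real.pi) ^ n ≤ ((200 : ℝ) / 157) ^ n :=
    pow_le_pow_left₀ hpi.le four_div_pi_lt.le n
  have h157 : (0 : ℝ) < (157 : ℝ) ^ n := by positivity
  have h5 : (0 : ℝ) ≤ (5 : ℝ) ^ (n - 2) := by positivity
  calc (5 : ℝ) ^ (n - 2) * ((4 / Real.pi) ^ n * ((n.factorial : ℕ) : ℝ) ^ 2)
      ≤ (5 : ℝ) ^ (n - 2) * (((200 : ℝ) / 157) ^ n * ((n.factorial : ℕ) : ℝ) ^ 2) := by
        apply mul_le_mul_of_nonneg_left _ h5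
        exact mul_le_mul_of_nonneg_right hpow hfac.le
    _ = ((5 : ℝ) ^ (n - 2) * 200 ^ n * ((n.factorial : ℕ) : ℝ) ^ 2) / 157 ^ n := by
        rw [div_pow]; field_simp
    _ < (n : ℝ) ^ (2 * n) := by
        rw [div_lt_iff₀ h157]
        exact hnat

variable (K : Type*) [Field K] [NumberField K]

/-- **Minkowski at degree `n ∣ 96`**: `5 ^ (n - 2) < |d_K|`. -/
theorem pow_lt_abs_discr (hn : finrank ℚ K ∣ 96) (h2 : 2 ≤ finrank ℚ K) :
    (5 : ℝ) ^ (finrank ℚ K - 2) < ((|discr K| : ℤ) : ℝ) := by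
  refine lt_of_lt_of_le (pow_lt_minkowski hn h2) (le_trans ?_ (abs_discr_ge' K))
  have hpi : (1 : ℝ) ≤ 4 / Real.pi := by
    rw [le_div_iff₀ Real.pi_pos]
    have := Real.pi_le_four
    linarith
  have hfac : (0 : ℝ) < ((finrank ℚ K).factorial : ℝ) ^ 2 := by
    have : (0 : ℝ) < ((finrank ℚ K).factorial : ℝ) := by
      exact_mod_cast (finrank ℚ K).factorial_pos
    positivity
  have hr2 : 2 * InfinitePlace.nrComplexPlaces K ≤ finrank ℚ K := by
    rw [← InfinitePlace.card_add_two_mul_card_eq_rank K]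
    exact Nat.le_add_left _ _
  have hpow : (4 / Real.pi) ^ (2 * InfinitePlace.nrComplexPlaces K) ≤
      (4 / Real.pi) ^ (finrank ℚ K) := pow_le_pow_right₀ hpi hr2
  have h0 : (0 : ℝ) < (4 / Real.pi) ^ (2 * InfinitePlace.nrComplexPlaces K) :=
    pow_pos (lt_of_lt_of_le one_pos hpi) _
  apply div_le_div_of_nonneg_left (by positivity) (mul_pos h0 hfac)
  exact mul_le_mul_of_nonneg_right hpow hfac.le

/-- the same in `ℤ` -/
theorem pow_lt_abs_discr_int (hn : finrank ℚ K ∣ 96) (h2 : 2 ≤ finrank ℚ K) :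
    (5 : ℤ) ^ (finrank ℚ K - 2) < |discr K| := by
  have h := pow_lt_abs_discr K hn h2
  have h' : (((5 : ℤ) ^ (finrank ℚ K - 2) : ℤ) : ℝ) < ((|discr K| : ℤ) : ℝ) := by
    rw [Int.cast_pow]
    exact_mod_cast h
  exact_mod_cast h'

/-- the discriminant does not divide `5 ^ m` for `m ≤ n - 2` -/
theorem not_discr_dvd_pow (hn : finrank ℚ K ∣ 96) (h2 : 2 ≤ finrank ℚ K) {m : ℕ}
    (hm : m ≤ finrank ℚ K - 2) : ¬ (discr K ∣ (5 : ℤ) ^ m) := by
  intro hd
  have h1 : |discr K| ≤ (5 : ℤ) ^ m := by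
    have := Int.le_of_dvd (by positivity) ((abs_dvd _ _).mpr hd)
    exact this
  have h2' : (5 : ℤ) ^ m ≤ (5 : ℤ) ^ (finrank ℚ K - 2) :=
    pow_le_pow_right₀ (by norm_num) hm
  exact absurd (pow_lt_abs_discr_int K hn h2) (not_lt.mpr (h1.trans h2'))

/-- **consumer form**: if `e ∣ n = [K : ℚ]`, `n ∣ 96`, `2 ≤ n` and `d_K ∣ 5 ^ (n - n / e)` (the tame
discriminant bound for ramification index `e` at `5`, unramified elsewhere), then `e = n`. -/
theorem eq_of_discr_dvd_pow (hn : finrank ℚ K ∣ 96) (h2 : 2 ≤ finrank ℚ K) {e : ℕ}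
    (he : e ∣ finrank ℚ K) (hd : discr K ∣ (5 : ℤ) ^ (finrank ℚ K - finrank ℚ K / e)) :
    e = finrank ℚ K := by
  by_contra hne
  obtain ⟨k, hk⟩ := he
  have hn0 : 0 < finrank ℚ K := by omega
  have he0 : 0 < e := by
    rcases Nat.eq_zero_or_pos e with h | h
    · rw [h, zero_mul] at hk; omega
    · exact h
  have hk2 : 2 ≤ k := by
    rcases k with _ | _ | k
    · rw [mul_zero] at hk; omega
    · rw [zero_add, mul_one] at hk; exact absurd hk.symm hne
    · omega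
  have hdiv : finrank ℚ K / e = k := by
    rw [hk, Nat.mul_div_cancel_left _ he0]
  refine not_discr_dvd_pow K hn h2 (m := finrank ℚ K - finrank ℚ K / e) ?_ hd
  rw [hdiv]
  omega

end Fermat.Agent.GE8.Irr2.P5.MinkNum
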