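/-
GATE-E (S59 pre-work) / E8.6 IRR2, leaf P5-MINK (helper26), file 1: **the tame discriminant bound**.
Mathlib only.

`K/ℚ` a Galois number field of degree `n` PRIME TO `p`, unramified outside `p`, `P ∣ p` a prime of
`𝓞 K`, `e f g = n`:

* `not_dvd_differentIdeal_of_finrank_ne_zero` : (general `A ⊆ B` Dedekind) an ideal `P'`, coprime to
  its complement `Q` in `p B`, with `dim_{A/p} (B ⧸ P') ≠ 0` in `A ⧸ p`, does not divide the
  different (the CRT idempotent `(1, 0)` has trace `dim (B ⧸ P')`; Mathlib's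
  `not_dvd_differentIdeal_of_intTrace_not_mem`);
* `not_pow_ramificationIdx_dvd_differentIdeal` : `P ^ e ∤ 𝔇_K` (`dim (𝓞 K ⧸ P ^ e) = e f`, prime to
  `p` because `e f ∣ n`) — the upper bound missing from Mathlib (`pow_sub_one_dvd_differentIdeal` is
  the lower bound);
* `natAbs_discr_dvd_pow` : `|d_K| ∣ p ^ (g f (e - 1))`;
* `natAbs_discr_dvd_pow_sub_two` : consumer form: if the inertia group at `P` is not all of
  `Gal(K/ℚ)` then `|d_K| ∣ p ^ (n - 2)`.
-/
import Mathlib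

set_option autoImplicit false

open Module NumberField Ideal

namespace Fermat.Agent.GE8.Irr2.P5.TameDisc

attribute [local instance] FractionRing.liftAlgebra FractionRing.isScalarTower_liftAlgebra
  Ideal.Quotient.field

section T1

variable {A B : Type*} [CommRing A] [CommRing B] [Algebra A B]
  [IsDedekindDomain A] [IsDedekindDomain B] [IsTorsionFree A B] [Module.Finite A B]

/-- an ideal `P'` (a prime power in the applications), coprime to its complement `Q` in `p B`, with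
`dim_{A/p} (B ⧸ P') ≠ 0` in `A ⧸ p`, does not divide the different: the CRT idempotent has trace
`dim (B ⧸ P')`. -/
theorem not_dvd_differentIdeal_of_finrank_ne_zero
    [Algebra.IsSeparable (FractionRing A) (FractionRing B)]
    {p : Ideal A} [p.IsMaximal] (P' Q : Ideal B) [P'.LiesOver p]
    (hPQ : IsCoprime P' Q) (hP : P' * Q = Ideal.map (algebraMap A B) p)
    (hfr : (Module.finrank (A ⧸ p) (B ⧸ P') : A ⧸ p) ≠ 0) :
    ¬ P' ∣ differentIdeal A B := by
  let : Algebra (A ⧸ p) (B ⧸ Q) := Ideal.Quotient.algebraQuotientOfLEComap (by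
      rw [← Ideal.map_le_iff_le_comap, ← hP]
      exact Ideal.mul_le_right)
  have : IsScalarTower A (A ⧸ p) (B ⧸ Q) := .of_algebraMap_eq' rfl
  have : Module.Finite (A ⧸ p) (B ⧸ Q) :=
    Module.Finite.of_restrictScalars_finite A (A ⧸ p) (B ⧸ Q)
  have : Module.Finite (A ⧸ p) (B ⧸ P') :=
    Module.Finite.of_restrictScalars_finite A (A ⧸ p) (B ⧸ P')
  let e : (B ⧸ p.map (algebraMap A B)) ≃ₐ[A ⧸ p] ((B ⧸ P') × B ⧸ Q) :=
    { __ := (Ideal.quotEquivOfEq hP.symm).trans (Ideal.quotientMulEquivQuotientProd P' Q hPQ),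
      commutes' := Quotient.ind fun _ ↦ rfl }
  obtain ⟨y, hy⟩ := Ideal.Quotient.mk_surjective (e.symm (1, 0))
  refine not_dvd_differentIdeal_of_intTrace_not_mem A P' Q hP y ?_ ?_
  · have := congr((e $hy).2)
    simp at this
    simpa [e, Ideal.Quotient.eq_zero_iff_mem] using this
  · rw [← Ideal.Quotient.eq_zero_iff_mem, ← Algebra.trace_quotient_eq_of_isDedekindDomain,
      hy, Algebra.trace_eq_of_algEquiv, Algebra.trace_prod_apply]
    have h1 : Algebra.trace (A ⧸ p) (B ⧸ P') 1 = (Module.finrank (A ⧸ p) (B ⧸ P') : A ⧸ p) := by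
      have := Algebra.trace_algebraMap (R := A ⧸ p) (S := B ⧸ P') 1
      rwa [map_one, nsmul_one] at this
    simpa [h1] using hfr

end T1



section T2

variable (K : Type*) [Field K] [NumberField K] [IsGalois ℚ K]

theorem isMaximal_span_natCast {p : ℕ} (hp : p.Prime) : (span {(p : ℤ)}).IsMaximal :=
  PrincipalIdealRing.isMaximal_of_irreducible (Nat.prime_iff_prime_int.mp hp).irreducible

theorem natCast_quotient_span_eq_zero_iff (p n : ℕ) :
    ((n : ℕ) : ℤ ⧸ span {(p : ℤ)}) = 0 ↔ p ∣ n := by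
  have : ((n : ℕ) : ℤ ⧸ span {(p : ℤ)}) = Ideal.Quotient.mk _ ((n : ℕ) : ℤ) := by
    rw [map_natCast]
  rw [this, Ideal.Quotient.eq_zero_iff_mem, Ideal.mem_span_singleton, Int.natCast_dvd_natCast]

/-- **tame upper bound**: in a Galois number field of degree prime to `p`, `P ^ e` does not divide
the different (`P ∣ p`, `e` the ramification index). -/
theorem not_pow_ramificationIdx_dvd_differentIdeal {p : ℕ} (hp : p.Prime)
    (hpn : ¬ p ∣ Module.finrank ℚ K) (P : Ideal (𝓞 K)) [P.IsPrime] [P.LiesOver (span {(p : ℤ)})] :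
    ¬ P ^ (P.ramificationIdx ℤ) ∣ differentIdeal ℤ (𝓞 K) := by
  have hmax : (span {(p : ℤ)}).IsMaximal := isMaximal_span_natCast hp
  have hpbot : span {(p : ℤ)} ≠ ⊥ := by
    rw [Ne, Ideal.span_singleton_eq_bot]
    exact_mod_cast hp.ne_zero
  have hp0 : map (algebraMap ℤ (𝓞 K)) (span {(p : ℤ)}) ≠ ⊥ := Ideal.map_ne_bot_of_ne_bot hpbot
  have hPmax : P.IsMaximal := Ideal.IsMaximal.of_liesOver_isMaximal P (span {(p : ℤ)})
  obtain ⟨Q, hsup, hmap⟩ := Ideal.eq_prime_pow_mul_coprime hp0 P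
  rw [← Ideal.IsDedekindDomain.ramificationIdx_eq_normalizedFactors_count (span {(p : ℤ)}) P hp0]
    at hmap
  set e := P.ramificationIdx ℤ with he
  have hcop : IsCoprime (P ^ e) Q := (Ideal.isCoprime_iff_sup_eq.mpr hsup).pow_left
  -- `P ^ e` lies over `p`
  have he0 : e ≠ 0 := (Ideal.ramificationIdx_pos P ℤ).ne'
  have hle : P ^ e ≤ P := Ideal.pow_le_self he0
  have hover : span {(p : ℤ)} = (P ^ e).under ℤ := by
    refine hmax.eq_of_le ?_ ?_
    · intro h
      have h1 : (1 : ℤ) ∈ (P ^ e).under ℤ := by rw [h]; trivial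
      have h2 : (1 : 𝓞 K) ∈ P := hle (by simpa using h1)
      exact (Ideal.ne_top_iff_one P).mp (Ideal.IsPrime.ne_top inferInstance) h2
    · rw [Ideal.under_def, ← Ideal.map_le_iff_le_comap, hmap]
      exact Ideal.le_of_dvd (Dvd.intro _ rfl)
  have hlies : (P ^ e).LiesOver (span {(p : ℤ)}) := ⟨hover⟩
  refine not_dvd_differentIdeal_of_finrank_ne_zero (P ^ e) Q hcop hmap.symm ?_
  -- the dimension of `𝓞 K ⧸ P ^ e` over `𝔽_p`
  have hfin : Module.Finite (ℤ ⧸ span {(p : ℤ)}) (𝓞 K ⧸ P ^ e) :=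
    Module.Finite.of_restrictScalars_finite ℤ (ℤ ⧸ span {(p : ℤ)}) (𝓞 K ⧸ P ^ e)
  have hfinK : Finite (ℤ ⧸ span {(p : ℤ)}) := by
    apply Nat.finite_of_card_ne_zero
    rw [Int.card_ideal_quot]
    exact hp.ne_zero
  have hcard := Module.natCard_eq_pow_finrank (K := ℤ ⧸ span {(p : ℤ)}) (V := 𝓞 K ⧸ P ^ e)
  rw [Int.card_ideal_quot] at hcard
  have hnorm : Nat.card (𝓞 K ⧸ P ^ e) = p ^ (P.inertiaDeg ℤ * e) := by
    rw [← Submodule.cardQuot_apply, ← Ideal.absNorm_apply, map_pow, ← Ideal.pow_inertiaDeg p P,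
      ← pow_mul]
  have hfr : Module.finrank (ℤ ⧸ span {(p : ℤ)}) (𝓞 K ⧸ P ^ e) = P.inertiaDeg ℤ * e :=
    Nat.pow_right_injective hp.two_le (hcard.symm.trans hnorm)
  rw [hfr, Ne, natCast_quotient_span_eq_zero_iff]
  -- `e f g = n`
  have hprime : (span {(p : ℤ)}).IsPrime := hmax.isPrime
  have hefg := Ideal.ncard_primesOver_mul_card_inertia_mul_finrank (G := Gal(K/ℚ))
    (span {(p : ℤ)}) P
  have hcardI : Nat.card (P.inertia Gal(K/ℚ)) = e := by
    rw [Ideal.card_inertia_eq_ramificationIdxIn (G := Gal(K/ℚ)) (span {(p : ℤ)}) P,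
      Ideal.ramificationIdxIn_eq_ramificationIdx (span {(p : ℤ)}) P Gal(K/ℚ)]
  rw [hcardI, IsGalois.card_aut_eq_finrank] at hefg
  intro hdvd
  apply hpn
  rw [← hefg, mul_assoc, mul_comm e]
  exact Dvd.dvd.mul_left hdvd _

end T2



section T3

open UniqueFactorizationMonoid

/-- in a Dedekind domain, `a ^ k ∣ x ↔ k ≤ count a (normalizedFactors x)` for a nonzero prime. -/
theorem pow_dvd_iff_le_count {R : Type*} [CommRing R] [IsDedekindDomain R] {a x : Ideal R}
    (ha : a.IsPrime) (ha0 : a ≠ ⊥) (hx : x ≠ ⊥) (k : ℕ) :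
    a ^ k ∣ x ↔ k ≤ Multiset.count a (normalizedFactors x) := by
  have hirr : Irreducible a := (Ideal.prime_of_isPrime ha0 ha).irreducible
  rw [pow_dvd_iff_le_emultiplicity, emultiplicity_eq_count_normalizedFactors hirr hx,
    normalize_eq, Nat.cast_le]

variable (K : Type*) [Field K] [NumberField K] [IsGalois ℚ K]

/-- **the tame discriminant bound**: `K/ℚ` Galois of degree prime to `p`, unramified outside `p`:
`|d_K|` divides `p ^ (g f (e - 1))`. -/
theorem natAbs_discr_dvd_pow {p : ℕ} (hp : p.Prime) (hpn : ¬ p ∣ Module.finrank ℚ K)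
    (hunr : ∀ (Q : Ideal (𝓞 K)) [Q.IsPrime], Q ≠ ⊥ → (p : 𝓞 K) ∉ Q → Algebra.IsUnramifiedAt ℤ Q)
    (P : Ideal (𝓞 K)) [P.IsPrime] [P.LiesOver (span {(p : ℤ)})] :
    (NumberField.discr K).natAbs ∣
      p ^ ((IsDedekindDomain.primesOverFinset (span {(p : ℤ)}) (𝓞 K)).card *
        (P.inertiaDeg ℤ * (P.ramificationIdx ℤ - 1))) := by
  have hmax : (span {(p : ℤ)}).IsMaximal := isMaximal_span_natCast hp
  have hpbot : span {(p : ℤ)} ≠ ⊥ := by
    rw [Ne, Ideal.span_singleton_eq_bot]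
    exact_mod_cast hp.ne_zero
  set S := IsDedekindDomain.primesOverFinset (span {(p : ℤ)}) (𝓞 K) with hS
  set e := P.ramificationIdx ℤ with he
  set f := P.inertiaDeg ℤ with hf
  have hmemS : ∀ P' : Ideal (𝓞 K), P' ∈ S ↔ P'.IsPrime ∧ P'.LiesOver (span {(p : ℤ)}) := by
    intro P'
    rw [hS, IsDedekindDomain.mem_primesOverFinset_iff hpbot]
    rfl
  have hGal : ∀ P' ∈ S, P'.ramificationIdx ℤ = e ∧ P'.inertiaDeg ℤ = f := by
    intro P' hP'
    obtain ⟨h1, h2⟩ := (hmemS P').mp hP'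
    exact ⟨Ideal.ramificationIdx_eq_of_isGaloisGroup (span {(p : ℤ)}) P' P Gal(K/ℚ),
      Ideal.inertiaDeg_eq_of_isGaloisGroup (span {(p : ℤ)}) P' P Gal(K/ℚ)⟩
  -- the candidate
  let 𝔄 : Ideal (𝓞 K) := ∏ P' ∈ S, P' ^ (e - 1)
  have h𝔄0 : 𝔄 ≠ ⊥ := by
    rw [← Ideal.zero_eq_bot, Finset.prod_ne_zero_iff]
    intro P' hP'
    obtain ⟨h1, h2⟩ := (hmemS P').mp hP'
    refine pow_ne_zero _ ?_
    rw [Ideal.zero_eq_bot]
    exact Ideal.ne_bot_of_liesOver_of_ne_bot hpbot P'
  have h𝔇0 : differentIdeal ℤ (𝓞 K) ≠ ⊥ := differentIdeal_ne_bot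
  -- `𝔇 ∣ 𝔄`
  have hdvd : differentIdeal ℤ (𝓞 K) ∣ 𝔄 := by
    rw [dvd_iff_normalizedFactors_le_normalizedFactors h𝔇0 h𝔄0, Multiset.le_iff_count]
    intro a
    by_cases hmem : a ∈ normalizedFactors (differentIdeal ℤ (𝓞 K))
    · have hprime : Prime a := prime_of_normalized_factor a hmem
      have ha0 : a ≠ ⊥ := hprime.ne_zero
      have haP : a.IsPrime := Ideal.isPrime_of_prime hprime
      have hadvd : a ∣ differentIdeal ℤ (𝓞 K) := dvd_of_mem_normalizedFactors hmem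
      -- `a` lies over `p`
      have hpa : (p : 𝓞 K) ∈ a := by
        by_contra hpa
        exact (dvd_differentIdeal_iff.mp hadvd) (hunr a ha0 hpa)
      have hlies : a.LiesOver (span {(p : ℤ)}) := by
        refine ⟨hmax.eq_of_le ?_ ?_⟩
        · intro h
          have h1 : (1 : ℤ) ∈ a.under ℤ := by rw [h]; trivial
          exact (Ideal.ne_top_iff_one a).mp haP.ne_top (by simpa using h1)
        · rw [Ideal.span_le, Set.singleton_subset_iff]
          show algebraMap ℤ (𝓞 K) (p : ℤ) ∈ a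
          simpa using hpa
      have haS : a ∈ S := (hmemS a).mpr ⟨haP, hlies⟩
      obtain ⟨hea, -⟩ := hGal a haS
      have hnot := not_pow_ramificationIdx_dvd_differentIdeal K hp hpn a
      rw [hea, pow_dvd_iff_le_count haP ha0 h𝔇0] at hnot
      have h2 : a ^ (e - 1) ∣ 𝔄 := Finset.dvd_prod_of_mem (fun P' => P' ^ (e - 1)) haS
      rw [pow_dvd_iff_le_count haP ha0 h𝔄0] at h2
      omega
    · rw [Multiset.count_eq_zero_of_notMem hmem]
      exact Nat.zero_le _
  -- norms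
  have hnorm := map_dvd Ideal.absNorm hdvd
  rw [NumberField.absNorm_differentIdeal K (𝓞 K)] at hnorm
  refine hnorm.trans (dvd_of_eq ?_)
  show Ideal.absNorm (∏ P' ∈ S, P' ^ (e - 1)) = _
  rw [map_prod]
  rw [Finset.prod_congr rfl (g := fun _ => p ^ (f * (e - 1)))]
  · rw [Finset.prod_const, ← pow_mul, mul_comm]
  · intro P' hP'
    obtain ⟨h1, h2⟩ := (hmemS P').mp hP'
    obtain ⟨-, hfa⟩ := hGal P' hP'
    rw [map_pow, ← Ideal.pow_inertiaDeg p P', hfa, ← pow_mul]

end T3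



section T4

variable (K : Type*) [Field K] [NumberField K] [IsGalois ℚ K]

/-- **consumer form**: if `p` is not totally ramified (the inertia group at `P ∣ p` is not the whole
Galois group) then `|d_K| ∣ p ^ (n - 2)`. -/
theorem natAbs_discr_dvd_pow_sub_two {p : ℕ} (hp : p.Prime) (hpn : ¬ p ∣ Module.finrank ℚ K)
    (hunr : ∀ (Q : Ideal (𝓞 K)) [Q.IsPrime], Q ≠ ⊥ → (p : 𝓞 K) ∉ Q → Algebra.IsUnramifiedAt ℤ Q)
    (P : Ideal (𝓞 K)) [P.IsPrime] [P.LiesOver (span {(p : ℤ)})]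
    (hI : P.inertia Gal(K/ℚ) ≠ ⊤) :
    (NumberField.discr K).natAbs ∣ p ^ (Module.finrank ℚ K - 2) := by
  have hmax : (span {(p : ℤ)}).IsMaximal := isMaximal_span_natCast hp
  have hprime : (span {(p : ℤ)}).IsPrime := hmax.isPrime
  have hpbot : span {(p : ℤ)} ≠ ⊥ := by
    rw [Ne, Ideal.span_singleton_eq_bot]
    exact_mod_cast hp.ne_zero
  refine (natAbs_discr_dvd_pow K hp hpn hunr P).trans (pow_dvd_pow p ?_)
  have hefg := Ideal.ncard_primesOver_mul_card_inertia_mul_finrank (G := Gal(K/ℚ))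
    (span {(p : ℤ)}) P
  have hcardI : Nat.card (P.inertia Gal(K/ℚ)) = P.ramificationIdx ℤ := by
    rw [Ideal.card_inertia_eq_ramificationIdxIn (G := Gal(K/ℚ)) (span {(p : ℤ)}) P,
      Ideal.ramificationIdxIn_eq_ramificationIdx (span {(p : ℤ)}) P Gal(K/ℚ)]
  have hg : ((span {(p : ℤ)}).primesOver (𝓞 K)).ncard =
      (IsDedekindDomain.primesOverFinset (span {(p : ℤ)}) (𝓞 K)).card := by
    rw [← IsDedekindDomain.coe_primesOverFinset hpbot (𝓞 K), Set.ncard_coe_finset]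
  rw [hcardI, IsGalois.card_aut_eq_finrank, hg] at hefg
  have hlt : P.ramificationIdx ℤ < Module.finrank ℚ K := by
    rw [← hcardI, ← IsGalois.card_aut_eq_finrank]
    have hle : Nat.card (P.inertia Gal(K/ℚ)) ≤ Nat.card Gal(K/ℚ) :=
      Subgroup.card_le_card_group _
    refine lt_of_le_of_ne hle fun h => hI ?_
    exact Subgroup.card_eq_iff_eq_top _ |>.mp h
  set g := (IsDedekindDomain.primesOverFinset (span {(p : ℤ)}) (𝓞 K)).card
  set e := P.ramificationIdx ℤ
  set f := P.inertiaDeg ℤ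
  set n := Module.finrank ℚ K
  have he : 0 < e := Ideal.ramificationIdx_pos P ℤ
  clear_value g e f n
  -- `g f ≥ 2`
  have hgf : 2 ≤ g * f := by
    by_contra hcon
    have : g * f ≤ 1 := by omega
    have h1 : g * e * f ≤ e := by
      calc g * e * f = e * (g * f) := by ring
        _ ≤ e * 1 := Nat.mul_le_mul_left e this
        _ = e := mul_one e
    omega
  have hexp : g * (f * (e - 1)) + g * f = n := by
    rw [← hefg]
    obtain ⟨e', rfl⟩ : ∃ e', e = e' + 1 := ⟨e - 1, by omega⟩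
    rw [Nat.add_sub_cancel]
    ring
  omega

end T4


end Fermat.Agent.GE8.Irr2.P5.TameDisc
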