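/-
GATE-E (S59 pre-work) / E8.6 IRR2 at `p = 5`, node GE8-IRR2-P5MINK, the FRONT (helper26).

Abstract (no elliptic curve): `f : G_ℚ ↠ Γ` a finite quotient of finite level, unramified outside
`5` (`MinkA` shape), `#Γ ∣ 96`, `A` a place of `ℚ̄` over `5`.  Then **`f(G_ℚ) = f(I_A)`**
(`exists_inertia_rep_five`).

Proof: `K :=` the fixed field of `ker f` is a Galois number field of degree `n = #Γ`, prime to `5`,
so `K` is tamely ramified at `5`; it is unramified at every other prime (`isUnramifiedAt_of_inertia_le`: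
the inertia group of a prime of `K` is the image of an inertia group of `G_ℚ`, the bridge
`exists_mem_inertia_restrict` = `S13/Global.exists_mul_mem_inertia`).  By the tame discriminant
bound `TameDisc.natAbs_discr_dvd_pow_sub_two`, `|d_K| ∣ 5 ^ (n - 2)` unless the prime of `K` below
`A` is totally ramified; Minkowski's bound (`MinkNum.not_discr_dvd_pow`, helper9) excludes the
former for `n ∣ 96`, `n ≥ 2`.  So `Gal(K/ℚ)` is the inertia group of that prime, and the bridge
lifts every element to `I_A`.

* `restrictNormalHom_eq_one_iff`, `primeBelow`, `exists_mem_inertia_restrict` (bridge);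
* `isUnramifiedAt_of_under_eq`, `under_primeBelow`, `isUnramifiedAt_of_inertia_le`;
* `finrank_eq_card`, `exists_inertia_rep_of_inertia_eq_top`;
* `exists_inertia_rep_five`.
-/
import Mathlib
import Fermat.Agent.S13.Global
import Fermat.Agent.GE8.Irr2.MinkA
import Fermat.Agent.GE8.Irr2.P5.TameDisc
import Fermat.Agent.GE8.Irr2.P5.MinkNum

set_option autoImplicit false
set_option linter.unusedSectionVars false
set_option linter.unusedVariables false

open scoped Pointwise NumberField
open Fermat.Agent.Common_helper32 Fermat.Agent.S13.Global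

namespace Fermat.Agent.GE8.Irr2.P5.Front

attribute [local instance] topZb discreteTopology_Zb continuousSMul_Zb

section Bridge

variable (K : IntermediateField ℚ Qb) [NumberField K] [IsGalois ℚ K]

/-- the fixing subgroup of a Galois number field inside `ℚ̄` is normal. -/
theorem normal_fixingSubgroup : K.fixingSubgroup.Normal := by
  have h : IsGalois ℚ K := inferInstance
  rw [algebra_rat_eq] at h
  exact (InfiniteGalois.normal_iff_isGalois K).2 h

/-- the kernel of the restriction to `K`. -/
theorem restrictNormalHom_eq_one_iff (σ : GQ) :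
    AlgEquiv.restrictNormalHom K σ = 1 ↔ σ ∈ K.fixingSubgroup := by
  rw [IntermediateField.mem_fixingSubgroup_iff]
  constructor
  · intro h x hx
    have h1 := AlgEquiv.restrictNormal_commutes σ K ⟨x, hx⟩
    have h2 : σ.restrictNormal K = 1 := h
    rw [h2] at h1
    exact h1.symm
  · intro h
    ext x
    have h1 := AlgEquiv.restrictNormal_commutes σ K x
    have h2 : σ (algebraMap K Qb x) = algebraMap K Qb x := h x x.2
    rw [h2] at h1
    exact h1

/-- the prime of `K` below a place `A` of `ℚ̄`. -/
noncomputable abbrev primeBelow (A : ValuationSubring Qb) : Ideal (𝓞 K) :=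
  (centerIdeal A).comap (toZb K)

instance (A : ValuationSubring Qb) : (primeBelow K A).IsPrime := Ideal.comap_isPrime _ _

/-- **the bridge**: the inertia group of the prime of `K` below `A` is the image of `I_A`. -/
theorem exists_mem_inertia_restrict (A : ValuationSubring Qb) (l : ℕ) (hl : l.Prime)
    (hA : (l : Qb) ∈ A.nonunits) (τ : Gal(K/ℚ)) (hτ : τ ∈ (primeBelow K A).inertia Gal(K/ℚ)) :
    ∃ σ ∈ A.inertiaSubgroupIn ℚ, AlgEquiv.restrictNormalHom K σ = τ := by
  obtain ⟨σ₀, rfl⟩ := AlgEquiv.restrictNormalHom_surjective Qb τ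
  have hn := normal_fixingSubgroup K
  have hclosed : IsClosed (K.fixingSubgroup : Set GQ) := IntermediateField.fixingSubgroup_isClosed K
  have key : ∀ x : Zb, (∀ g ∈ K.fixingSubgroup, g • x = x) → σ₀ • x - x ∈ centerIdeal A := by
    intro x hx
    have hxK : (x : Qb) ∈ K := by
      have h1 : (x : Qb) ∈ IntermediateField.fixedField K.fixingSubgroup :=
        fun g => congrArg Subtype.val (hx g.1 g.2)
      rwa [InfiniteGalois.fixedField_fixingSubgroup] at h1
    have hint : IsIntegral ℤ (⟨(x : Qb), hxK⟩ : K) := by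
      rw [← isIntegral_algebraMap_iff (algebraMap K Qb).injective]
      exact x.2
    let y : 𝓞 K := ⟨⟨(x : Qb), hxK⟩, hint⟩
    have hy : toZb K y = x := Subtype.ext rfl
    have h2 : AlgEquiv.restrictNormalHom K σ₀ • y - y ∈ primeBelow K A := hτ y
    have h3 : toZb K (AlgEquiv.restrictNormalHom K σ₀ • y) = σ₀ • x := by
      apply Subtype.ext
      show algebraMap K Qb ((AlgEquiv.restrictNormalHom K σ₀) (y : _)) = σ₀ (x : Qb)
      exact AlgEquiv.restrictNormal_commutes σ₀ K _
    rw [Ideal.mem_comap, map_sub, h3, hy] at h2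
    exact h2
  obtain ⟨h, hh, hmem⟩ := exists_mul_mem_inertia K.fixingSubgroup hn hclosed A l hl hA σ₀ key
  refine ⟨h * σ₀, hmem, ?_⟩
  rw [map_mul, (restrictNormalHom_eq_one_iff K h).2 hh, one_mul]

end Bridge

section Unram

variable (K : IntermediateField ℚ Qb) [NumberField K] [IsGalois ℚ K]

/-- in a Galois number field, unramifiedness passes between the primes over the same rational
prime. -/
theorem isUnramifiedAt_of_under_eq (P Q : Ideal (𝓞 K)) [P.IsPrime] [Q.IsPrime]
    (h : P.under ℤ = Q.under ℤ) (hP : P.inertia Gal(K/ℚ) = ⊥) : Algebra.IsUnramifiedAt ℤ Q := by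
  rw [← Ideal.ramificationIdx_eq_one_iff,
    ← Ideal.ramificationIdxIn_eq_ramificationIdx (Q.under ℤ) Q Gal(K/ℚ), ← h,
    ← Ideal.card_inertia_eq_ramificationIdxIn (G := Gal(K/ℚ)) (P.under ℤ) P, hP]
  simp

/-- `l` lies in the prime below a place over `l`. -/
theorem natCast_mem_primeBelow (A : ValuationSubring Qb) (l : ℕ) (hA : (l : Qb) ∈ A.nonunits) :
    ((l : ℕ) : 𝓞 K) ∈ primeBelow K A := by
  rw [Ideal.mem_comap, mem_centerIdeal, map_natCast]
  simpa using hA

/-- the prime below a place over `l` lies over `(l)`. -/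
theorem under_primeBelow (A : ValuationSubring Qb) (l : ℕ) (hl : l.Prime)
    (hA : (l : Qb) ∈ A.nonunits) : (primeBelow K A).under ℤ = Ideal.span {(l : ℤ)} := by
  have hmax : (Ideal.span {(l : ℤ)}).IsMaximal :=
    Fermat.Agent.GE8.Irr2.P5.TameDisc.isMaximal_span_natCast hl
  symm
  refine hmax.eq_of_le (Ideal.IsPrime.ne_top inferInstance) ?_
  rw [Ideal.span_singleton_le_iff_mem, Ideal.under_def, Ideal.mem_comap]
  have := natCast_mem_primeBelow K A l hA
  simpa using this

/-- **unramified primes of `K`**: if the inertia group of ONE place of `ℚ̄` over `l` fixes `K`, then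
every prime of `K` containing `l` is unramified. -/
theorem isUnramifiedAt_of_inertia_le (l : ℕ) (hl : l.Prime)
    (h : ∃ A' : ValuationSubring Qb, A'.LiesOverPrime l ∧
      A'.inertiaSubgroupIn ℚ ≤ K.fixingSubgroup)
    (Q : Ideal (𝓞 K)) [Q.IsPrime] (hQ : ((l : ℕ) : 𝓞 K) ∈ Q) : Algebra.IsUnramifiedAt ℤ Q := by
  obtain ⟨A', hA', hI⟩ := h
  have hA'' : (l : Qb) ∈ A'.nonunits := hA'
  have hmax : (Ideal.span {(l : ℤ)}).IsMaximal :=
    Fermat.Agent.GE8.Irr2.P5.TameDisc.isMaximal_span_natCast hl
  have hQu : Q.under ℤ = Ideal.span {(l : ℤ)} := by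
    symm
    refine hmax.eq_of_le (Ideal.IsPrime.ne_top inferInstance) ?_
    rw [Ideal.span_singleton_le_iff_mem, Ideal.under_def, Ideal.mem_comap]
    simpa using hQ
  refine isUnramifiedAt_of_under_eq K (primeBelow K A') Q
    ((under_primeBelow K A' l hl hA'').trans hQu.symm) ?_
  rw [eq_bot_iff]
  intro τ hτ
  rw [Subgroup.mem_bot]
  obtain ⟨σ, hσ, rfl⟩ := exists_mem_inertia_restrict K A' l hl hA'' τ hτ
  exact (restrictNormalHom_eq_one_iff K σ).2 (hI hσ)

end Unram

section Main

variable (K : IntermediateField ℚ Qb) [NumberField K] [IsGalois ℚ K]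
variable {Γ : Type*} [Group Γ] (f : GQ →* Γ)

/-- the degree of the field cut out by `f`. -/
theorem finrank_eq_card (hsurj : Function.Surjective f) (hK : K.fixingSubgroup = f.ker) :
    Module.finrank ℚ K = Nat.card Γ := by
  rw [← IsGalois.card_aut_eq_finrank]
  have hker : (AlgEquiv.restrictNormalHom (F := ℚ) (K₁ := Qb) K).ker = f.ker := by
    ext σ
    rw [MonoidHom.mem_ker, restrictNormalHom_eq_one_iff, hK]
  have e1 := QuotientGroup.quotientKerEquivOfSurjective
    (AlgEquiv.restrictNormalHom (F := ℚ) (K₁ := Qb) K) (AlgEquiv.restrictNormalHom_surjective Qb)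
  have e2 := QuotientGroup.quotientKerEquivOfSurjective f hsurj
  rw [← Nat.card_congr e1.toEquiv, ← Nat.card_congr e2.toEquiv, hker]

/-- if the prime of `K` below `A` is totally ramified then `f(G_ℚ) = f(I_A)`. -/
theorem exists_inertia_rep_of_inertia_eq_top (hK : K.fixingSubgroup = f.ker)
    (A : ValuationSubring Qb) (l : ℕ) (hl : l.Prime) (hA : (l : Qb) ∈ A.nonunits)
    (htop : (primeBelow K A).inertia Gal(K/ℚ) = ⊤) (σ₀ : GQ) :
    ∃ τ ∈ A.inertiaSubgroupIn ℚ, f σ₀ = f τ := by
  obtain ⟨σ, hσ, hres⟩ := exists_mem_inertia_restrict K A l hl hA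
    (AlgEquiv.restrictNormalHom K σ₀) (by rw [htop]; trivial)
  refine ⟨σ, hσ, ?_⟩
  have h1 : AlgEquiv.restrictNormalHom K (σ⁻¹ * σ₀) = 1 := by
    rw [map_mul, map_inv, hres, inv_mul_cancel]
  have h2 : σ⁻¹ * σ₀ ∈ f.ker := by
    rw [← hK]
    exact (restrictNormalHom_eq_one_iff K _).1 h1
  rw [MonoidHom.mem_ker, map_mul, map_inv, inv_mul_eq_one] at h2
  exact h2.symm

end Main

section Five

variable {Γ : Type*} [Group Γ] [Finite Γ] (f : GQ →* Γ)

/-- **Front of P5MINK.**  A finite quotient `f : G_ℚ ↠ Γ` of order dividing `96`, unramified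
outside `5`, is the image of the inertia group at (any place over) `5`: the field cut out by `f`
is tamely ramified at `5`, so its discriminant divides `5 ^ (n - 2)` unless `5` is totally
ramified (`TameDisc`), and the former contradicts Minkowski's bound (`MinkNum`). -/
theorem exists_inertia_rep_five
    (hf : ∃ L : IntermediateField ℚ Qb, FiniteDimensional ℚ L ∧
      ∀ σ : GQ, (∀ x ∈ L, σ x = x) → f σ = 1)
    (hsurj : Function.Surjective f) (A : ValuationSubring Qb) (hA : A.LiesOverPrime 5)
    (hunr : ∀ l : ℕ, l.Prime → l ≠ 5 → ∃ A' : ValuationSubring Qb, A'.LiesOverPrime l ∧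
      ∀ σ ∈ A'.inertiaSubgroupIn ℚ, f σ = 1)
    (hcard : Nat.card Γ ∣ 96) : ∀ σ : GQ, ∃ τ ∈ A.inertiaSubgroupIn ℚ, f σ = f τ := by
  have hopen : IsOpen (f.ker : Set GQ) :=
    Fermat.Agent.GE8.Irr2.MinkA.isOpen_of_ker_le f hf f.ker le_rfl
  have hn : f.ker.Normal := inferInstance
  have hfd : FiniteDimensional ℚ (IntermediateField.fixedField f.ker) :=
    finiteDimensional_fixedField f.ker hopen
  have hgal : IsGalois ℚ (IntermediateField.fixedField f.ker) :=
    isGalois_fixedField f.ker hn hopen
  have hnf : NumberField (IntermediateField.fixedField f.ker) :=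
    { to_charZero := inferInstance, to_finiteDimensional := hfd }
  have hK : (IntermediateField.fixedField f.ker).fixingSubgroup = f.ker :=
    fixingSubgroup_fixedField_of_isOpen f.ker hopen
  have hdeg : Module.finrank ℚ (IntermediateField.fixedField f.ker) = Nat.card Γ :=
    finrank_eq_card _ f hsurj hK
  have hA' : ((5 : ℕ) : Qb) ∈ A.nonunits := hA
  intro σ₀
  by_cases h2 : 2 ≤ Nat.card Γ
  · refine exists_inertia_rep_of_inertia_eq_top _ f hK A 5 Nat.prime_five hA' ?_ σ₀
    by_contra hI
    have hpn : ¬ 5 ∣ Module.finrank ℚ (IntermediateField.fixedField f.ker) := by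
      rw [hdeg]
      intro h
      have := dvd_trans h hcard
      omega
    have hLO : (primeBelow (IntermediateField.fixedField f.ker) A).LiesOver
        (Ideal.span {((5 : ℕ) : ℤ)}) :=
      ⟨(under_primeBelow _ A 5 Nat.prime_five hA').symm⟩
    have hunrK : ∀ (Q : Ideal (𝓞 (IntermediateField.fixedField f.ker))) [Q.IsPrime], Q ≠ ⊥ →
        ((5 : ℕ) : 𝓞 (IntermediateField.fixedField f.ker)) ∉ Q → Algebra.IsUnramifiedAt ℤ Q := by
      intro Q _ hQ0 h5
      obtain ⟨p, hp : Q.under ℤ = Ideal.span _⟩ := IsPrincipalIdealRing.principal (Q.under ℤ)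
      have hp0 : p ≠ 0 := by
        intro hp0
        apply Ideal.under_ne_bot ℤ hQ0
        rw [hp, hp0]
        simp
      have hprime : Prime p := by
        rw [← Ideal.span_singleton_prime hp0, ← hp]
        infer_instance
      have hl : p.natAbs.Prime := Int.prime_iff_natAbs_prime.mp hprime
      have hpQ : ((p : ℤ) : 𝓞 (IntermediateField.fixedField f.ker)) ∈ Q := by
        have h1 : p ∈ Q.under ℤ := by
          rw [hp]
          exact Ideal.mem_span_singleton_self p
        rw [Ideal.under_def, Ideal.mem_comap] at h1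
        simpa using h1
      have hlQ : ((p.natAbs : ℕ) : 𝓞 (IntermediateField.fixedField f.ker)) ∈ Q := by
        have h1 : ((p.natAbs : ℤ) : 𝓞 (IntermediateField.fixedField f.ker)) ∈ Q := by
          rcases Int.natAbs_eq p with h | h
          · rw [← h]; exact hpQ
          · have : ((p.natAbs : ℤ)) = -p := by omega
            rw [this, Int.cast_neg]
            exact Q.neg_mem hpQ
        simpa using h1
      have hl5 : p.natAbs ≠ 5 := by
        intro h
        rw [h] at hlQ
        exact h5 hlQ
      obtain ⟨A₁, hA₁, hI₁⟩ := hunr _ hl hl5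
      refine isUnramifiedAt_of_inertia_le _ _ hl ⟨A₁, hA₁, fun σ hσ => ?_⟩ Q hlQ
      rw [hK]
      exact MonoidHom.mem_ker.2 (hI₁ σ hσ)
    have h1 := Fermat.Agent.GE8.Irr2.P5.TameDisc.natAbs_discr_dvd_pow_sub_two
      (IntermediateField.fixedField f.ker) Nat.prime_five hpn hunrK
      (primeBelow (IntermediateField.fixedField f.ker) A) hI
    have h3 : NumberField.discr (IntermediateField.fixedField f.ker) ∣
        (5 : ℤ) ^ (Module.finrank ℚ (IntermediateField.fixedField f.ker) - 2) := by
      have := Int.natAbs_dvd.mp (Int.natCast_dvd_natCast.mpr h1)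
      simpa using this
    exact Fermat.Agent.GE8.Irr2.P5.MinkNum.not_discr_dvd_pow
      (IntermediateField.fixedField f.ker) (by rw [hdeg]; exact hcard) (by rw [hdeg]; exact h2)
      le_rfl h3
  · have hsub : Subsingleton Γ := by
      rw [← Finite.card_le_one_iff_subsingleton]
      omega
    exact ⟨1, Subgroup.one_mem _, Subsingleton.elim _ _⟩

end Five

end Fermat.Agent.GE8.Irr2.P5.Front
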