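/-
GATE-E (S59 pre-work) / E8.6 IRR2 at `p = 5`, node P5MINK (helper26 7242), leaf (C3) (helper16).

**From the inertia group of a finite Galois level `K / ℚ` (Mathlib `Ideal.inertia`) to the image of
the inertia subgroup `A.inertiaSubgroupIn ℚ` of `G_ℚ` (prelude).**

`K ≤ ℚ̄` finite Galois over `ℚ`, `A` a place of `ℚ̄` over `p`, `primeUnder A K` the prime of `𝓞 K`
under the centre of `A`.

* `under_primeUnder`  : `(primeUnder A K).under ℤ = (p)`;
* `exists_mul_mem_inertia_of_restrict_mem` : if the restriction of `σ₀ : G_ℚ` to `K` lies in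
  `(primeUnder A K).inertia Gal(K/ℚ)`, then `h * σ₀ ∈ I_A` for some `h` fixing `K`
  (`S13/Global.exists_mul_mem_inertia`);
* `map_inertia_eq_top_of_inertia_eq_top` : for `f : G_ℚ →* Γ` surjective and trivial on
  `Gal(ℚ̄/K)`: `(primeUnder A K).inertia Gal(K/ℚ) = ⊤ ⟹ f(I_A) = ⊤`;
* `map_inertia_eq_top_of_card`, `map_inertia_eq_top_of_ramificationIdxIn` : the same from
  `#inertia = [K:ℚ]`, resp. `e(p, K) = [K:ℚ]` (`Ideal.card_inertia_eq_ramificationIdxIn`) — this is
  the output `e = n` of helper26's (D) + (M);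
* `false_of_ramificationIdxIn_eq_finrank` : the plug into `CommRed.false_of_map_inertia_eq_top`.
-/
import Mathlib
import Fermat.Agent.S13.Global
import Fermat.Agent.GE8.Irr2.P5.CommRed

set_option autoImplicit false
set_option linter.unusedSectionVars false
set_option linter.unusedVariables false

namespace Fermat.Agent.GE8.Irr2.P5.InertiaTop

open Fermat.Agent.Common_helper32 Fermat.Agent.S13.Global
open scoped NumberField Pointwise

attribute [local instance] topZb discreteTopology_Zb continuousSMul_Zb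

section Level

variable (A : ValuationSubring Qb) (K : IntermediateField ℚ Qb)

/-- the prime of `𝓞 K` under the centre of `A`. -/
noncomputable def primeUnder : Ideal (𝓞 K) := (centerIdeal A).comap (toZb K)

instance primeUnder_isPrime : (primeUnder A K).IsPrime := Ideal.comap_isPrime _ _

theorem mem_primeUnder (x : 𝓞 K) : x ∈ primeUnder A K ↔ toZb K x ∈ centerIdeal A := Iff.rfl

theorem natCast_mem_primeUnder {p : ℕ} (hA : (p : Qb) ∈ A.nonunits) :
    ((p : ℕ) : 𝓞 K) ∈ primeUnder A K := by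
  rw [mem_primeUnder, mem_centerIdeal, map_natCast]
  simpa using hA

/-- `primeUnder A K` lies over `(p)`. -/
theorem under_primeUnder {p : ℕ} (hp : p.Prime) (hA : (p : Qb) ∈ A.nonunits) :
    (primeUnder A K).under ℤ = Ideal.span {(p : ℤ)} := by
  have hpz : Prime (p : ℤ) := Nat.prime_iff_prime_int.1 hp
  have hmax : (Ideal.span {(p : ℤ)}).IsMaximal :=
    PrincipalIdealRing.isMaximal_of_irreducible hpz.irreducible
  have hle : Ideal.span {(p : ℤ)} ≤ (primeUnder A K).under ℤ := by
    rw [Ideal.span_singleton_le_iff_mem, Ideal.under_def, Ideal.mem_comap]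
    have := natCast_mem_primeUnder A K hA
    simpa using this
  have hne : (primeUnder A K).under ℤ ≠ ⊤ := Ideal.IsPrime.ne_top inferInstance
  exact (hmax.eq_of_le hne hle).symm

variable [FiniteDimensional ℚ K] [IsGalois ℚ K]

/-- **the lifting step**: an element of `G_ℚ` whose restriction to `K` lies in the inertia group of
`primeUnder A K` is, up to `Gal(ℚ̄/K)`, in the inertia subgroup of `A`. -/
theorem exists_mul_mem_inertia_of_restrict_mem {p : ℕ} (hp : p.Prime)
    (hA : (p : Qb) ∈ A.nonunits) (σ₀ : GQ)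
    (hσ₀ : AlgEquiv.restrictNormalHom K σ₀ ∈ (primeUnder A K).inertia Gal(K/ℚ)) :
    ∃ h ∈ K.fixingSubgroup, h * σ₀ ∈ A.inertiaSubgroupIn ℚ := by
  have hn : (K.fixingSubgroup).Normal := by
    have : IsGalois ℚ K := inferInstance
    rw [algebra_rat_eq] at this
    exact (InfiniteGalois.normal_iff_isGalois K).2 this
  have hclosed : IsClosed ((K.fixingSubgroup : Subgroup GQ) : Set GQ) :=
    IntermediateField.fixingSubgroup_isClosed K
  refine exists_mul_mem_inertia K.fixingSubgroup hn hclosed A p hp hA σ₀ (fun x hx => ?_)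
  have hxK : (x : Qb) ∈ K := by
    have h1 : (x : Qb) ∈ IntermediateField.fixedField K.fixingSubgroup :=
      fun g => congrArg Subtype.val (hx g.1 g.2)
    rwa [InfiniteGalois.fixedField_fixingSubgroup K] at h1
  have hint : IsIntegral ℤ (⟨(x : Qb), hxK⟩ : K) := by
    rw [← isIntegral_algebraMap_iff (algebraMap K Qb).injective]
    exact x.2
  let y : 𝓞 K := ⟨⟨(x : Qb), hxK⟩, hint⟩
  have hy : toZb K y = x := Subtype.ext rfl
  have h2 : AlgEquiv.restrictNormalHom K σ₀ • y - y ∈ primeUnder A K := hσ₀ y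
  have h3 : toZb K (AlgEquiv.restrictNormalHom K σ₀ • y) = σ₀ • x := by
    apply Subtype.ext
    show algebraMap K Qb ((AlgEquiv.restrictNormalHom K σ₀) (y : _)) = σ₀ (x : Qb)
    exact AlgEquiv.restrictNormal_commutes σ₀ K _
  rw [mem_primeUnder, map_sub, h3, hy] at h2
  exact h2

/-- **`inertia = ⊤` at the level `K` ⟹ `f(I_A) = ⊤`** for every surjective `f` trivial on
`Gal(ℚ̄/K)`. -/
theorem map_inertia_eq_top_of_inertia_eq_top {p : ℕ} (hp : p.Prime)
    (hA : (p : Qb) ∈ A.nonunits) {Γ : Type*} [Group Γ] (f : GQ →* Γ)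
    (hsurj : Function.Surjective f) (hK : ∀ σ : GQ, (∀ x ∈ K, σ x = x) → f σ = 1)
    (htop : (primeUnder A K).inertia Gal(K/ℚ) = ⊤) :
    (A.inertiaSubgroupIn ℚ).map f = ⊤ := by
  rw [eq_top_iff]
  intro g _
  obtain ⟨σ₀, rfl⟩ := hsurj g
  obtain ⟨h, hh, hmem⟩ := exists_mul_mem_inertia_of_restrict_mem A K hp hA σ₀
    (by rw [htop]; trivial)
  refine ⟨h * σ₀, hmem, ?_⟩
  rw [map_mul, hK h (fun x hx => hh ⟨x, hx⟩), one_mul]

/-- the same from `#inertia = [K : ℚ]`. -/
theorem map_inertia_eq_top_of_card {p : ℕ} (hp : p.Prime)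
    (hA : (p : Qb) ∈ A.nonunits) {Γ : Type*} [Group Γ] (f : GQ →* Γ)
    (hsurj : Function.Surjective f) (hK : ∀ σ : GQ, (∀ x ∈ K, σ x = x) → f σ = 1)
    (hcard : Nat.card ((primeUnder A K).inertia Gal(K/ℚ)) = Module.finrank ℚ K) :
    (A.inertiaSubgroupIn ℚ).map f = ⊤ := by
  refine map_inertia_eq_top_of_inertia_eq_top A K hp hA f hsurj hK ?_
  rw [← Subgroup.card_eq_iff_eq_top, hcard, IsGalois.card_aut_eq_finrank]

end Level

section NF

variable (A : ValuationSubring Qb) (K : IntermediateField ℚ Qb)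
  [FiniteDimensional ℚ K] [IsGalois ℚ K]

/-- a finite subextension of `ℚ̄ / ℚ` is a number field. -/
theorem numberField_intermediateField : NumberField K :=
  { to_charZero := inferInstance, to_finiteDimensional := inferInstance }

/-- `#inertia = e(p, K)`. -/
theorem card_inertia_primeUnder {p : ℕ} (hp : p.Prime) (hA : (p : Qb) ∈ A.nonunits) :
    Nat.card ((primeUnder A K).inertia Gal(K/ℚ)) =
      (Ideal.span {(p : ℤ)}).ramificationIdxIn (𝓞 K) := by
  have : NumberField K := numberField_intermediateField K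
  rw [← under_primeUnder A K hp hA]
  exact Ideal.card_inertia_eq_ramificationIdxIn (G := Gal(K/ℚ)) ((primeUnder A K).under ℤ)
    (primeUnder A K)

/-- **`e(p, K) = [K : ℚ]` ⟹ `f(I_A) = ⊤`** (`f` surjective, trivial on `Gal(ℚ̄/K)`). -/
theorem map_inertia_eq_top_of_ramificationIdxIn {p : ℕ} (hp : p.Prime)
    (hA : (p : Qb) ∈ A.nonunits) {Γ : Type*} [Group Γ] (f : GQ →* Γ)
    (hsurj : Function.Surjective f) (hK : ∀ σ : GQ, (∀ x ∈ K, σ x = x) → f σ = 1)
    (he : (Ideal.span {(p : ℤ)}).ramificationIdxIn (𝓞 K) = Module.finrank ℚ K) :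
    (A.inertiaSubgroupIn ℚ).map f = ⊤ :=
  map_inertia_eq_top_of_card A K hp hA f hsurj hK
    (by rw [card_inertia_primeUnder A K hp hA, he])

end NF

/-! ### the plug into (C2) -/

section Plug

open Fermat.Agent.GE8.Irr2.MinkAPlug Fermat.Agent.GB.Top.FreyTwo.Transvection

variable (W : WeierstrassCurve ℤ) {p : ℕ}

/-- **(C3) ⟹ (C2)**: `W / ℤ` semistable, `Δ ≠ 0`, `p` odd, `W[p]` irreducible, no transvection;
`K` a finite Galois level of `ρ̄_{W,p}`.  Then `p` is NOT totally ramified-with-trivial-residue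
in `K` in the sense `e(p, K) = [K : ℚ]`. -/
theorem false_of_ramificationIdxIn_eq_finrank (hss : W.IsSemistableModel) (hΔ : W.Δ ≠ 0)
    (hp : p.Prime) (hp2 : p ≠ 2) (hirr : W.ModRepIsIrreducible p)
    (hno : ¬ HasTransvectionModP (W.map (Int.castRingHom ℚ)) p)
    (K : IntermediateField ℚ Qb) [FiniteDimensional ℚ K] [IsGalois ℚ K]
    (hK : ∀ σ : GQ, (∀ x ∈ K, σ x = x) → rhoR (W.map (Int.castRingHom ℚ)) p σ = 1)
    (he : (Ideal.span {(p : ℤ)}).ramificationIdxIn (𝓞 K) = Module.finrank ℚ K) : False := by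
  obtain ⟨A, hA⟩ := exists_liesOverPrime p hp
  exact Fermat.Agent.GE8.Irr2.P5.CommRed.false_of_map_inertia_eq_top W hss hΔ hp hp2 hirr hno A hA
    (map_inertia_eq_top_of_ramificationIdxIn A K hp hA _ (rhoR_surjective _ p) hK he)

end Plug

end Fermat.Agent.GE8.Irr2.P5.InertiaTop
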